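/-
S55 / final assembly (helper71).

`topSys S` : the concrete `LocSys` on `Gal(ℚ̄/ℚ)`;
`result_of_coreNumbers` : `(topSys S).CoreNumbers (cycloChar p) dl` implies the frozen statement.
-/
import Fermat.Agent.S55.F.End.Main
import Fermat.Agent.S55.Fc.Trans.Main
import Fermat.Agent.S55.P.Glue.Sha
import Fermat.Agent.S55.G.N3Cyc

set_option autoImplicit false

namespace Fermat.Agent.S55

open CategoryTheory Module groupCohomology ExtCitation Representation

local notation "Qbar" => AlgebraicClosure ℚ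
local notation "GQ" => (AlgebraicClosure ℚ ≃ₐ[ℚ] AlgebraicClosure ℚ)

/-- the concrete arithmetic situation -/
noncomputable def topSys (S : Finset Nat.Primes) : LocSys GQ where
  L := P.levS S
  L' := P.levAll
  fine := P.cont_levAll_levS S
  ι := ↥S
  Dv := fun q => P.decGrp q.1

variable {p : ℕ} [Fact p.Prime]

theorem isOpen_levS_of_isOpenS {S : Finset Nat.Primes} {U : Subgroup GQ} (h : G.IsOpenS S U) :
    (P.levS S).IsOpen U := by
  obtain ⟨F, hF, hFU⟩ := h
  exact ⟨_, ⟨F, hF, rfl⟩, hFU⟩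

theorem ker_chiMod_one_le : (G.chiMod (G.chiP p) 1).ker ≤ (cycloChar p).ker := by
  have hp : p.Prime := Fact.out
  intro σ hσ
  obtain ⟨ζ, hζ⟩ := G.exists_primitiveRoot_pow p 1
  rw [G.mem_ker_chiMod_chiP p σ 1 hζ] at hσ
  rw [pow_one] at hζ
  have h1 := G.n3_cycloChar_spec p σ (ζ := ζ) hζ.pow_eq_one
  rw [hσ] at h1
  have : NeZero p := ⟨hp.ne_zero⟩
  have : Fact (1 < p) := ⟨hp.one_lt⟩
  have h2 : ζ ^ 1 = ζ ^ ((cycloChar p σ : (ZMod p)ˣ) : ZMod p).val := by rwa [pow_one]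
  have h3 := hζ.pow_inj hp.one_lt (ZMod.val_lt _) h2
  rw [MonoidHom.mem_ker]
  apply Units.ext
  rw [Units.val_one, ← ZMod.natCast_zmod_val ((cycloChar p σ : (ZMod p)ˣ) : ZMod p), ← h3]
  simp

theorem isOpen_ker_cycloChar {S : Finset Nat.Primes} (hpS : pPrime p ∈ S) :
    (P.levS S).IsOpen (cycloChar p).ker :=
  (isOpen_levS_of_isOpenS (G.isOpenS_ker_chiMod p hpS 1)).mono ker_chiMod_one_le

theorem isOpen_ker_of_smooth {S : Finset Nat.Primes} (M : Rep (ZMod p) GQ)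
    [FiniteDimensional (ZMod p) M]
    (hsm : ∀ m : M, ∃ F : IntermediateField ℚ Qbar, FiniteDimensional ℚ F ∧
      ∀ s ∈ F.fixingSubgroup, M.ρ s m = m)
    (hMur : ∀ q : Nat.Primes, q ∉ S → ∀ A : ValuationSubring Qbar,
      A.LiesOverPrime (q : ℕ) → ∀ g ∈ A.inertiaSubgroupIn ℚ, M.ρ g = 1) :
    (P.levS S).IsOpen M.ρ.ker := by
  obtain ⟨F, hF, -, h⟩ := P.exists_level_of_smooth M hsm hMur
  exact ⟨_, ⟨F, hF, rfl⟩, fun s hs => MonoidHom.mem_ker.2 (h s hs)⟩

section sha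

variable (S : Finset Nat.Primes) (hω : (P.levS S).IsOpen (cycloChar p).ker) (dl : ↥S → ℕ)
variable {V : Type} [AddCommGroup V] [Module (ZMod p) V] (ρ : Representation (ZMod p) GQ V)

theorem topSys_sha1_eq :
    ((topSys S).datum (cycloChar p) hω dl).sha1 ρ = P.Sha1 S ρ := by
  refine Submodule.ext fun x => Iff.trans ?_ (P.mem_Sha1_iff (S := S) (ρ := ρ) x).symm
  show ((topSys S).datum (cycloChar p) hω dl).locTot1 ρ x = 0 ↔ _
  constructor
  · intro h q
    exact congrFun h q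
  · intro h
    funext q
    exact h q

theorem topSys_sha2_eq :
    ((topSys S).datum (cycloChar p) hω dl).sha2 ρ = P.Sha2 S ρ := by
  refine Submodule.ext fun x => Iff.trans ?_ (P.mem_Sha2_iff (S := S) (ρ := ρ) x).symm
  show ((topSys S).datum (cycloChar p) hω dl).locTot2 ρ x = 0 ↔ _
  constructor
  · intro h q
    exact congrFun h q
  · intro h
    funext q
    exact h q

end sha

/-- **The frozen statement from the numerical hypotheses in CORE language.** -/
theorem result_of_coreNumbers (hp2 : p ≠ 2) (S : Finset Nat.Primes) (hpS : pPrime p ∈ S)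
    (dl : ↥S → ℕ) (hcore : (topSys S).CoreNumbers (cycloChar p) dl)
    (M : Rep (ZMod p) GQ) [FiniteDimensional (ZMod p) M]
    (hsm : ∀ m : M, ∃ F : IntermediateField ℚ Qbar, FiniteDimensional ℚ F ∧
      ∀ s ∈ F.fixingSubgroup, M.ρ s m = m)
    (hMur : ∀ q : Nat.Primes, q ∉ S → ∀ A : ValuationSubring Qbar,
      A.LiesOverPrime (q : ℕ) → ∀ g ∈ A.inertiaSubgroupIn ℚ, M.ρ g = 1) :
    ∃ B : sha₁ S (M.dualTwist (cycloChar p)) →ₗ[ZMod p] sha₂ S M →ₗ[ZMod p] ZMod p,
      (∀ y, (∀ x, B y x = 0) → y = 0) ∧ (∀ x, (∀ y, B y x = 0) → x = 0) := by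
  have hω : (P.levS S).IsOpen (cycloChar p).ker := isOpen_ker_cycloChar hpS
  have hN : ((topSys S).datum (cycloChar p) hω dl).Numbers := hcore.numbers (topSys S) hω
  obtain ⟨h1, h2, h3⟩ := hN.main M.ρ (isOpen_ker_of_smooth M hsm hMur)
  have e1 : ((topSys S).datum (cycloChar p) hω dl).sha1 (F.dt (cycloChar p) M.ρ)
      = P.Sha1 S (M.ρ.dual.twist (cycloChar p)) := topSys_sha1_eq S hω dl _
  have e2 := topSys_sha2_eq S hω dl M.ρ
  refine P.result_of_finrank_eq hp2 S M ?_ ?_ ?_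
  · rw [← e1]; exact h1
  · rw [← e2]; exact h2
  · rw [← e1, ← e2]; exact h3

end Fermat.Agent.S55
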