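/-
S55 / final assembly, part 2 (helper71): the easy fields of `(topSys S).CoreNumbers`:
`ne`, `dl_sum`, `n3` (from helper76's `G.N3`).
-/
import Fermat.Agent.S55.Top.Main
import Fermat.Agent.S55.G.N3

set_option autoImplicit false

namespace Fermat.Agent.S55

open CategoryTheory Module groupCohomology ExtCitation Representation

local notation "Qbar" => AlgebraicClosure ℚ
local notation "GQ" => (AlgebraicClosure ℚ ≃ₐ[ℚ] AlgebraicClosure ℚ)

variable {p : ℕ} [Fact p.Prime]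

/-- the local degrees: `1` at `p`, `0` elsewhere -/
def topDl (p : ℕ) [Fact p.Prime] (S : Finset Nat.Primes) : ↥S → ℕ :=
  fun q => if q.1 = pPrime p then 1 else 0

theorem topDl_sum (S : Finset Nat.Primes) (hpS : pPrime p ∈ S) : ∑ v, topDl p S v = 1 := by
  classical
  rw [Finset.sum_eq_single (⟨pPrime p, hpS⟩ : ↥S)]
  · simp [topDl]
  · intro b _ hb
    have : b.1 ≠ pPrime p := fun h => hb (Subtype.ext h)
    simp [topDl, this]
  · intro h
    exact absurd (Finset.mem_univ _) h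

theorem isOpenS_of_isOpen_levS {S : Finset Nat.Primes} {U : Subgroup GQ}
    (h : (P.levS S).IsOpen U) : G.IsOpenS S U := by
  obtain ⟨_, ⟨F, hF, rfl⟩, hFU⟩ := h
  exact ⟨F, hF, hFU⟩

theorem topSys_sU (S : Finset Nat.Primes) (U : Subgroup GQ) :
    (topSys S).sU U = ∑ q ∈ S, G.ndc U (primeLocalToGlobal q).range := by
  rw [← Finset.sum_coe_sort S]
  refine Finset.sum_congr rfl fun q _ => ?_
  show Nat.card (DoubleCoset.Quotient (U : Set GQ) (P.decGrp q.1 : Set GQ)) = _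
  rw [P.decGrp_eq_range]
  rfl

theorem topSys_n3 (hp2 : p ≠ 2) (S : Finset Nat.Primes) (hpS : pPrime p ∈ S)
    (U : Subgroup GQ) (hU : (topSys S).L.IsOpen U) (hUω : U ≤ (cycloChar p).ker) :
    ∃ (n : ℕ) (c : ℕ → Subgroup GQ), c 0 = U ∧
      (∀ i, c (i + 1) ≤ c i ∧ (topSys S).L.IsOpen (c (i + 1)) ∧
        ((c (i + 1)).subgroupOf (c i)).Normal ∧
        (c (i + 1)).relIndex (c i) = p) ∧ (topSys S).sU (c n) ≤ p ^ n := by
  obtain ⟨c, h0, hc, n, hn⟩ := G.N3 hp2 S hpS U (isOpenS_of_isOpen_levS hU) hUω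
  refine ⟨n, c, h0, fun i => ⟨(hc i).2.1, isOpen_levS_of_isOpenS (hc (i + 1)).1, (hc i).2.2.1,
    (hc i).2.2.2⟩, ?_⟩
  rw [topSys_sU]
  exact hn

end Fermat.Agent.S55
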