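/-
S55 / final assembly, part 3 (helper71): `(topSys S).CoreNumbers (cycloChar p) (topDl p S)`.
Fields `l1`, `l2`, `l2mu` : block [L] (`L/C3Final.lean`); `n1` : block [G] (`G/N1.lean`);
`n2` : block [G] (`G/N2`); `n3` : `G/N3.lean`.
-/
import Fermat.Agent.S55.Top.Core
import Fermat.Agent.S55.L.C3Final
import Fermat.Agent.S55.G.N1
import Fermat.Agent.S55.G.N2

set_option autoImplicit false

namespace Fermat.Agent.S55

open CategoryTheory Module groupCohomology ExtCitation Representation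

local notation "Qbar" => AlgebraicClosure ℚ
local notation "GQ" => (AlgebraicClosure ℚ ≃ₐ[ℚ] AlgebraicClosure ℚ)

variable {p : ℕ} [Fact p.Prime]

theorem topDl_eq (S : Finset Nat.Primes) (v : ↥S) :
    topDl p S v = if (v.1 : ℕ) = p then 1 else 0 := by
  have hiff : v.1 = pPrime p ↔ (v.1 : ℕ) = p :=
    ⟨fun h => congrArg Subtype.val h, fun h => Subtype.ext h⟩
  unfold topDl
  by_cases h : (v.1 : ℕ) = p
  · simp [hiff.2 h]
  · have h' : ¬ v.1 = pPrime p := fun h' => h (hiff.1 h')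
    simp [h, h']

theorem topSys_coreNumbers (hp2 : p ≠ 2) (S : Finset Nat.Primes) (hpS : pPrime p ∈ S) :
    (topSys S).CoreNumbers (cycloChar p) (topDl p S) where
  ne := ⟨⟨pPrime p, hpS⟩⟩
  dl_sum := topDl_sum S hpS
  l1 := fun v W hW ho hω => by
    have : Fact ((v.1 : ℕ)).Prime := ⟨v.1.2⟩
    have h := L.coreNumbers_l1 (p := p) (q := (v.1 : ℕ)) W hW ho hω
    rw [← topDl_eq S v] at h
    exact h
  l2 := fun v W hW ho hω => by
    have : Fact ((v.1 : ℕ)).Prime := ⟨v.1.2⟩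
    exact L.coreNumbers_l2 (q := (v.1 : ℕ)) W hW ho hω
  l2mu := fun v => by
    have : Fact ((v.1 : ℕ)).Prime := ⟨v.1.2⟩
    exact L.coreNumbers_l2mu (q := (v.1 : ℕ))
  n1 := fun U hU hω => G.n1 hp2 hpS U hU hω
  n2 := fun x v h => G.n2 hp2 hpS x v h
  n3 := topSys_n3 hp2 S hpS

end Fermat.Agent.S55
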